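/-
CELL T1b (S40) — helper46.  Brick `KL46/Abstract`: THE ABSTRACT GALOIS-MODULE LAYER of route 693
(report 693 (3b), (3c), (3d); helper50's interface N1–N5 in Lean form).  Pure group theory, Mathlib only.

`I` = an inertia group at `p`, acting on `A = J(K̄)`.
`LocalData I A p` packages what the geometry must supply about `K = ker β` (β = the two degeneracy
push-forwards `J₀(Mp) → J₀(M)²`):
* `J0 = ker τ` (τ = tropicalisation) with `s x - x ∈ J0` for all `x` (I acts trivially on `A / ker τ`; L2);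
* `J1 = ker (red : ker τ → Pic⁰(X_s)(F̄_p))` with `s x - x ∈ J1` for `x ∈ J0`;
* `toric` : on `J1 ∩ K ∩ A[p]` the group `I` acts through `χ` ((3a): `ker β̂ = T̂`, `T̂[p] = Hom(X, μ_p)`).

Results:
* `exists_eigen` (KL-ss)  : a nonzero `I`-stable `V ⊆ K ∩ A[p]` contains a nonzero vector fixed by `I` or on
  which `I` acts by `χ` — so `V` has an `I`-stable line; contradiction with
  `ESS46.Torsion.inertia_irreducible` in the supersingular case.
* `chi_line_mem_J1`        : a `χ`-eigenvector killed by `p` lies in `J1` (`χ ≠ 1`)  [hypothesis (J) of (3c)].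
* `exists_toric_correction` (KL-ord, (3c)) : transport of the `E`-side coboundary `w ∈ 1 + 𝔪` to the toric
  part: `φ Q - ι z` is `I`-invariant.
* `quotient_embeds` (KL-old, (3d)) : for `V ⊆ J0`, an element of `V` whose image under `red` vanishes lies in `J1`
  (so `V / (V ∩ J1)` embeds in `Pic⁰(X_s)(F̄_p)`; stated elementwise).
-/
import Mathlib

set_option autoImplicit false
set_option linter.unusedSectionVars false
set_option linter.unusedVariables false

namespace Fermat.Agent.T1.KL46.Abstract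

variable {I A : Type*} [Group I] [AddCommGroup A] [DistribMulAction I A]

/-- The local data at `p` on `A = J(K̄)`. -/
structure LocalData (I A : Type*) [Group I] [AddCommGroup A] [DistribMulAction I A] (p : ℕ) where
  /-- `ker τ` -/
  J0 : AddSubgroup A
  /-- the kernel of reduction inside `ker τ` -/
  J1 : AddSubgroup A
  /-- `ker β` -/
  K : AddSubgroup A
  /-- the mod `p` cyclotomic character on `I`, as a natural number exponent -/
  chi : I → ℕ
  J1_le : J1 ≤ J0
  sub_mem_J0 : ∀ (s : I) (x : A), s • x - x ∈ J0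
  sub_mem_J1 : ∀ (s : I), ∀ x ∈ J0, s • x - x ∈ J1
  toric : ∀ x ∈ J1, x ∈ K → p • x = 0 → ∀ s : I, s • x = chi s • x

variable {p : ℕ}

/-- **(KL-ss).** A nonzero `I`-stable subgroup of `K ∩ A[p]` contains a nonzero vector which is fixed by `I` or
on which `I` acts through `χ`. -/
theorem exists_eigen (D : LocalData I A p) (V : AddSubgroup A)
    (hVI : ∀ s : I, ∀ x ∈ V, s • x ∈ V) (hVK : V ≤ D.K) (hVp : ∀ x ∈ V, p • x = 0) (hV : V ≠ ⊥) :
    ∃ x ∈ V, x ≠ 0 ∧ ((∀ s : I, s • x = x) ∨ (∀ s : I, s • x = D.chi s • x)) := by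
  by_cases h1 : ∃ x ∈ V, x ∈ D.J1 ∧ x ≠ 0
  · obtain ⟨x, hxV, hx1, hx0⟩ := h1
    exact ⟨x, hxV, hx0, Or.inr (D.toric x hx1 (hVK hxV) (hVp x hxV))⟩
  push Not at h1
  by_cases h0 : ∃ x ∈ V, x ∈ D.J0 ∧ x ≠ 0
  · obtain ⟨x, hxV, hxJ0, hx0⟩ := h0
    refine ⟨x, hxV, hx0, Or.inl fun s => ?_⟩
    have hm : s • x - x ∈ V := V.sub_mem (hVI s x hxV) hxV
    have := h1 _ hm (D.sub_mem_J1 s x hxJ0)
    exact sub_eq_zero.1 this
  push Not at h0
  obtain ⟨x, hx0⟩ := (AddSubgroup.ne_bot_iff_exists_ne_zero).1 hV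
  refine ⟨x, x.2, fun h => hx0 (Subtype.ext h), Or.inl fun s => ?_⟩
  have hm : s • (x : A) - x ∈ V := V.sub_mem (hVI s x x.2) x.2
  have := h0 _ hm (D.sub_mem_J0 s x)
  exact sub_eq_zero.1 this

/-- **Supersingular conclusion.** If no nonzero vector of `V` spans an `I`-stable cyclic subgroup, then `V = ⊥`. -/
theorem eq_bot_of_no_stable_line (D : LocalData I A p) (V : AddSubgroup A)
    (hVI : ∀ s : I, ∀ x ∈ V, s • x ∈ V) (hVK : V ≤ D.K) (hVp : ∀ x ∈ V, p • x = 0)
    (hirr : ∀ x ∈ V, x ≠ 0 → ∃ s : I, s • x ∉ AddSubgroup.zmultiples x) : V = ⊥ := by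
  by_contra hV
  obtain ⟨x, hxV, hx0, h | h⟩ := exists_eigen D V hVI hVK hVp hV
  · obtain ⟨s, hs⟩ := hirr x hxV hx0
    rw [h s] at hs
    exact hs (AddSubgroup.mem_zmultiples x)
  · obtain ⟨s, hs⟩ := hirr x hxV hx0
    rw [h s] at hs
    exact hs (AddSubgroup.nsmul_mem _ (AddSubgroup.mem_zmultiples x) _)

/-- A `χ`-eigenvector killed by `p` lies in `J1`, provided `χ(s₀) - 1` is invertible mod `p` for some `s₀`. -/
theorem chi_line_mem_J1 (D : LocalData I A p) {x : A} (hxp : p • x = 0)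
    (hx : ∀ s : I, s • x = D.chi s • x) (s₀ : I) {m : ℕ} (hm : (D.chi s₀) * m ≡ m + 1 [MOD p]) :
    x ∈ D.J1 := by
  -- `(χ(s₀) - 1) m ≡ 1`, so `x = m • (s₀ x - x)`
  have key : ∀ y : A, p • y = 0 → (∀ s : I, s • y = D.chi s • y) → y = m • (s₀ • y - y) := by
    intro y hyp hy
    rw [hy s₀, smul_sub, ← mul_smul, mul_comm]
    have h1 : (D.chi s₀ * m) • y = (m + 1) • y := by
      obtain ⟨a, b, hab⟩ : ∃ a b : ℕ, D.chi s₀ * m + p * a = m + 1 + p * b := by
        have := hm
        rcases Nat.le_total (D.chi s₀ * m) (m + 1) with hle | hle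
        · obtain ⟨c, hc⟩ := (Nat.modEq_iff_dvd' hle).1 this
          exact ⟨c, 0, by omega⟩
        · obtain ⟨c, hc⟩ := (Nat.modEq_iff_dvd' hle).1 this.symm
          exact ⟨0, c, by omega⟩
      have h2 : (D.chi s₀ * m + p * a) • y = (m + 1 + p * b) • y := by rw [hab]
      have hpa : (p * a) • y = 0 := by rw [mul_comm, mul_smul, hyp, smul_zero]
      have hpb : (p * b) • y = 0 := by rw [mul_comm, mul_smul, hyp, smul_zero]
      rw [add_smul, add_smul (m + 1), hpa, hpb, add_zero, add_zero] at h2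
      exact h2
    rw [h1, add_smul, one_smul, add_sub_cancel_left]
  have hx0 : x ∈ D.J0 := by
    rw [key x hxp hx]
    exact D.J0.nsmul_mem (D.sub_mem_J0 s₀ x) m
  rw [key x hxp hx]
  exact D.J1.nsmul_mem (D.sub_mem_J1 s₀ x hx0) m

section Ordinary

variable {U : Type*} [CommGroup U] [MulDistribMulAction I U]
variable {VE : Type*} [AddCommGroup VE] [DistribMulAction I VE]
variable {E : Type*}

/-- **(KL-ord), report 693 (3c).**  `ι : (E → U) → A` the toric map (`U = 1 + 𝔪_K̄`, `E` = the nodes),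
multiplicative-to-additive and `I`-equivariant; `φ : V_E → A` an `I`-equivariant embedding of the `E`-side
module; `P₀ ∈ V_E` a generator of the `χ`-line with `φ P₀ = ι (ζ ^ m)` (hypothesis (J));
`Q ∈ V_E` with `s Q - Q = c(s) P₀` and `w ∈ U` with `s w = w · ζ ^ c(s)` (the `E`-side coboundary, (PEU)).
Then `z := w ^ m` satisfies: `φ Q - ι z` is fixed by `I`. -/
theorem exists_toric_correction (ι : (E → U) → A)
    (hι_mul : ∀ a b : E → U, ι (a * b) = ι a + ι b)
    (hι_eq : ∀ (s : I) (a : E → U), ι (fun e => s • a e) = s • ι a)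
    (φ : VE →+ A) (hφ : ∀ (s : I) (v : VE), φ (s • v) = s • φ v)
    (ζ : U) (m : E → ℕ) (P₀ : VE) (hJ : φ P₀ = ι (fun e => ζ ^ m e))
    (Q : VE) (w : U) (c : I → ℕ)
    (hQ : ∀ s : I, s • Q = Q + c s • P₀) (hw : ∀ s : I, s • w = w * ζ ^ c s) :
    ∃ z : E → U, ∀ s : I, s • (φ Q - ι z) = φ Q - ι z := by
  refine ⟨fun e => w ^ m e, fun s => ?_⟩
  have hι_pow : ∀ (a : E → U) (n : ℕ), ι (a ^ n) = n • ι a := by
    intro a n
    induction n with
    | zero =>
      have h1 : ι (1 : E → U) = 0 := by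
        have := hι_mul 1 1
        rw [one_mul] at this
        exact left_eq_add.mp this
      rw [pow_zero, zero_smul, h1]
    | succ n ih => rw [pow_succ, hι_mul, ih, succ_nsmul]
  have h1 : (fun e => s • (w ^ m e)) = (fun e => w ^ m e) * (fun e => ζ ^ m e) ^ c s := by
    funext e
    simp only [Pi.mul_apply, Pi.pow_apply]
    rw [smul_pow', hw s, mul_pow, ← pow_mul, ← pow_mul, mul_comm (c s)]
  rw [smul_sub, ← hφ, hQ s, map_add, map_nsmul, ← hι_eq, h1, hι_mul, hι_pow, ← hJ]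
  abel

end Ordinary

/-- **(KL-old), report 693 (3d)**, elementwise: if `red : J0 → Ps` is additive with kernel `J1` then distinct
classes of `V ⊆ J0` modulo `V ∩ J1` have distinct reductions. -/
theorem quotient_embeds (D : LocalData I A p) {Ps : Type*} [AddCommGroup Ps] (red : D.J0 →+ Ps)
    (hker : ∀ x : D.J0, red x = 0 ↔ (x : A) ∈ D.J1)
    {x y : A} (hx : x ∈ D.J0) (hy : y ∈ D.J0) (h : red ⟨x, hx⟩ = red ⟨y, hy⟩) : x - y ∈ D.J1 := by
  have h1 : red (⟨x, hx⟩ - ⟨y, hy⟩) = 0 := by rw [map_sub, h, sub_self]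
  exact (hker _).1 h1

end Fermat.Agent.T1.KL46.Abstract
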